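import Mathlib
import Fermat.Agent.Lib.NormalFree
import Fermat.Agent.S34.TwoPrimes

/-!
# S36 (level `q²`), level-free core: finitely many primes over `π` WITH MULTIPLICITIES

This is the twin of `S34/TwoPrimes` (two primes, both with `e = 1`) for a finite family of
primes with arbitrary ramification indices.

Setting: `R`, `C` integrally closed domains, `C` integral over `R`, `R → C` injective, `π ∈ R`
a prime element (`π`-adically separated).  For every `i` in a finite index set we are given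

* a filtration `F i : ℕ → Ideal C` (think: `F i k = {c | v_i c ≥ k}` for a discrete valuation
  `v_i`), with `F i 1` prime and lying over `(π)`, and `π ∈ F i (e i)` (`e i ≥ 1`);
* a "uniformiser" `δ i ∈ F i 1` with `δ i * t ∈ F i (k + 1) → t ∈ F i k`;
* a family `z i : κ i → C` which is independent over `R ⧸ π` modulo `F i 1`;

the primes `F i 1` are pairwise distinct, and any `1 + ∑ i, e i * #(κ i)` elements of `C` are
`R`-linearly dependent (`[Frac C : Frac R] ≤ ∑ i, e i * #(κ i)`).  Then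

* `dvd_of_forall_mem`        : `(∀ i, c ∈ F i (e i)) → π ∣ c`, i.e. `⨅ i, F i (e i) = (π)`;
* `pow_dvd_of_forall_mem`    : `(∀ i, c ∈ F i (n * e i)) → π ^ n ∣ c`;
* `exists_eq_of_isPrime`     : every prime of `C` lying over `(π)` is one of the `F i 1`;
* `exists_smul_sub_sum_mem`  : `z i` spans `C ⧸ F i 1` over `Frac (R ⧸ π)` (residue degree is
  exactly `#(κ i)`);
* `exists_sub_algebraMap_mem`: if `κ i` is a point, `z i = 1` and `R ⧸ π` is integrally closed,
  then `R ⧸ π → C ⧸ F i 1` is surjective;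
* `exists_mul_pow_dvd`       : `x ∈ F i 1 → ∃ t ∉ F i 1, π ∣ t * x ^ e i`;
* `dvd_of_forall_exists_mul` : (with saturated filtrations) `(∀ i, ∃ t ∉ F i 1, π ∣ t * x) → π ∣ x`.

Everything is elementwise linear algebra: no localisation types, no Dedekind domains.

Intended use (`S36/TriGauss/Gauss.lean`): `R` = the level-`M'` chart ring, `C` = the level-`q² M'`
chart ring, the three primes `P_∞` (`e = 1`, `f = 1`), `P_0` (`e = 1`, `f = q²`), `P_11`
(`e = q - 1`, `f = 1`), `[F_{q²M'} : F_{M'}] = q² + q`.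
-/

set_option autoImplicit false
set_option linter.unusedSectionVars false

namespace Fermat.Agent.S36.TriGauss

open Fermat.Agent.Lib Fermat.Agent.S34

/-! ### Peeling off a filtration -/

section Peel

variable {R C : Type*} [CommRing R] [CommRing C] [Algebra R C]

theorem le_one_of_succ_le (F : ℕ → Ideal C) (hanti : ∀ k, F (k + 1) ≤ F k) (n : ℕ) :
    F (n + 1) ≤ F 1 := by
  induction n with
  | zero => exact le_rfl
  | succ n ih => exact (hanti (n + 1)).trans ih

theorem le_of_succ_le (F : ℕ → Ideal C) (hanti : ∀ k, F (k + 1) ≤ F k) {a b : ℕ} (h : a ≤ b) :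
    F b ≤ F a :=
  antitone_nat_of_succ_le hanti h

theorem sum_range_succ_split {κ : Type*} [Fintype κ] (z : κ → C) (δ : C) (g : κ → ℕ → R)
    (n : ℕ) :
    ∑ m ∈ Finset.range (n + 1), (∑ k, g k m • z k) * δ ^ m =
      δ * ∑ m ∈ Finset.range n, (∑ k, g k (m + 1) • z k) * δ ^ m + ∑ k, g k 0 • z k := by
  rw [Finset.sum_range_succ', pow_zero, mul_one, Finset.mul_sum]
  congr 1
  refine Finset.sum_congr rfl fun m _ => ?_
  rw [pow_succ]
  ring

/-- **Peeling.**  If `ε ∉ F 1` and `ε * ∑_{m < n} (∑ k, g k m • z k) * δ ^ m ∈ F n`, where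
`δ` is a uniformiser of the filtration and `z` is independent modulo `F 1`, then `π` divides
all the coefficients `g k m`, `m < n`. -/
theorem peel {π : R} (F : ℕ → Ideal C) (hF1 : (F 1).IsPrime)
    (hanti : ∀ k, F (k + 1) ≤ F k)
    (δ : C) (hδ1 : δ ∈ F 1) (hδ : ∀ k t, δ * t ∈ F (k + 1) → t ∈ F k)
    {κ : Type*} [Fintype κ] (z : κ → C)
    (hz : ∀ a : κ → R, ∑ k, a k • z k ∈ F 1 → ∀ k, π ∣ a k)
    (ε : C) (hε : ε ∉ F 1) (n : ℕ) :
    algebraMap R C π ∈ F n → ∀ g : κ → ℕ → R,
      ε * ∑ m ∈ Finset.range n, (∑ k, g k m • z k) * δ ^ m ∈ F n →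
      ∀ k, ∀ m < n, π ∣ g k m := by
  induction n with
  | zero =>
    intro _ g _ k m hm
    exact absurd hm (Nat.not_lt_zero m)
  | succ n ih =>
    intro hπn g hmem k m hm
    rw [sum_range_succ_split] at hmem
    have h1 := le_one_of_succ_le F hanti n hmem
    have h2 := (hF1.mem_or_mem h1).resolve_left hε
    have h3 : ∑ k, g k 0 • z k ∈ F 1 := by
      have h := (F 1).sub_mem h2
        ((F 1).mul_mem_right (∑ m ∈ Finset.range n, (∑ k, g k (m + 1) • z k) * δ ^ m) hδ1)
      rwa [add_sub_cancel_left] at h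
    have h0 : ∀ k, π ∣ g k 0 := hz _ h3
    have hG0 : ∑ k, g k 0 • z k ∈ F (n + 1) := by
      refine Ideal.sum_mem _ fun k _ => ?_
      obtain ⟨b, hb⟩ := h0 k
      rw [hb, mul_smul, Algebra.smul_def]
      exact Ideal.mul_mem_right _ _ hπn
    have h4 : δ * (ε * ∑ m ∈ Finset.range n, (∑ k, g k (m + 1) • z k) * δ ^ m) ∈ F (n + 1) := by
      have h := (F (n + 1)).sub_mem hmem ((F (n + 1)).mul_mem_left ε hG0)
      have e1 : δ * (ε * ∑ m ∈ Finset.range n, (∑ k, g k (m + 1) • z k) * δ ^ m) =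
          ε * (δ * ∑ m ∈ Finset.range n, (∑ k, g k (m + 1) • z k) * δ ^ m + ∑ k, g k 0 • z k) -
            ε * ∑ k, g k 0 • z k := by ring
      rw [e1]
      exact h
    have h5 := hδ n _ h4
    have ih' := ih (hanti n hπn) (fun k m => g k (m + 1)) h5
    cases m with
    | zero => exact h0 k
    | succ m => exact ih' k m (Nat.lt_of_succ_lt_succ hm)

end Peel

/-! ### The residue ring of a prime with `f = 1` -/

section Closed

variable {R C : Type*} [CommRing R] [IsDomain R] [CommRing C] [Algebra R C]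
  [Algebra.IsIntegral R C]

/-- If `s • c ≡ a` modulo a prime `P` lying over `(π)`, with `π ∤ s`, and `R ⧸ π` is integrally
closed, then `c` is congruent modulo `P` to an element of `R`. -/
theorem exists_sub_algebraMap_mem_of_smul {π : R} (hπ : Prime π)
    (hnormal : IsIntegrallyClosed (R ⧸ Ideal.span {π}))
    (P : Ideal C) [P.IsPrime] (hπP : algebraMap R C π ∈ P)
    (hP : ∀ a : R, algebraMap R C a ∈ P → π ∣ a) (c : C) (s a : R) (hs : ¬ π ∣ s)
    (hsa : algebraMap R C s * c - algebraMap R C a ∈ P) :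
    ∃ r : R, c - algebraMap R C r ∈ P := by
  have hprime : (Ideal.span {π}).IsPrime := (Ideal.span_singleton_prime hπ.ne_zero).mpr hπ
  have hker : ∀ t ∈ Ideal.span {π}, ((Ideal.Quotient.mk P).comp (algebraMap R C)) t = 0 := by
    intro t ht
    obtain ⟨u, rfl⟩ := Ideal.mem_span_singleton.mp ht
    rw [RingHom.comp_apply, Ideal.Quotient.eq_zero_iff_mem, map_mul]
    exact P.mul_mem_right _ hπP
  set φ : R ⧸ Ideal.span {π} →+* C ⧸ P := Ideal.Quotient.lift _ _ hker with hφdef
  have hφmk : ∀ t : R, φ (Ideal.Quotient.mk _ t) = Ideal.Quotient.mk P (algebraMap R C t) :=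
    fun t => Ideal.Quotient.lift_mk _ _ hker
  have hφ : Function.Injective φ := by
    rw [injective_iff_map_eq_zero]
    intro t ht
    obtain ⟨r, rfl⟩ := Ideal.Quotient.mk_surjective t
    rw [hφmk, Ideal.Quotient.eq_zero_iff_mem] at ht
    rw [Ideal.Quotient.eq_zero_iff_mem, Ideal.mem_span_singleton]
    exact hP r ht
  have hs0 : (Ideal.Quotient.mk (Ideal.span {π}) s) ≠ 0 := by
    rw [Ne, Ideal.Quotient.eq_zero_iff_mem, Ideal.mem_span_singleton]
    exact hs
  have hcint : φ.IsIntegralElem (Ideal.Quotient.mk P c) := by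
    obtain ⟨p, hp, hpc⟩ := Algebra.IsIntegral.isIntegral (R := R) c
    refine ⟨p.map (Ideal.Quotient.mk (Ideal.span {π})), hp.map _, ?_⟩
    rw [Polynomial.eval₂_map]
    have hcomp : φ.comp (Ideal.Quotient.mk (Ideal.span {π})) =
        (Ideal.Quotient.mk P).comp (algebraMap R C) := RingHom.ext hφmk
    rw [hcomp, ← Polynomial.hom_eval₂, hpc, map_zero]
  have hmul : φ (Ideal.Quotient.mk _ s) * Ideal.Quotient.mk P c = φ (Ideal.Quotient.mk _ a) := by
    rw [hφmk, hφmk, ← map_mul, Ideal.Quotient.eq]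
    exact hsa
  obtain ⟨r', hr'⟩ := TwoPrimes.exists_map_eq_of_mul_eq φ hφ hs0 hcint hmul
  obtain ⟨r, rfl⟩ := Ideal.Quotient.mk_surjective r'
  refine ⟨r, ?_⟩
  rw [hφmk, Ideal.Quotient.eq] at hr'
  have : c - algebraMap R C r = -(algebraMap R C r - c) := by ring
  rw [this]
  exact P.neg_mem hr'

end Closed

/-! ### The main statements -/

section Main

variable {R C : Type*} [CommRing R] [IsDomain R] [IsIntegrallyClosed R]
  [CommRing C] [IsDomain C] [IsIntegrallyClosed C] [Algebra R C] [FaithfulSMul R C]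
  [Algebra.IsIntegral R C]
  {π : R} (hπ : Prime π) (hsep : ∀ a : R, a ≠ 0 → ∃ n : ℕ, ¬ π ^ n ∣ a)
  {ι : Type*} [Fintype ι] [DecidableEq ι]
  (F : ι → ℕ → Ideal C) (e : ι → ℕ) (he : ∀ i, 1 ≤ e i)
  (hprime : ∀ i, (F i 1).IsPrime)
  (hanti : ∀ i k, F i (k + 1) ≤ F i k)
  (hpow : ∀ i, ∀ c ∈ F i 1, c ^ e i ∈ F i (e i))
  (hπF : ∀ i, algebraMap R C π ∈ F i (e i))
  (hcontr : ∀ i (a : R), algebraMap R C a ∈ F i 1 → π ∣ a)
  (hne : ∀ i j, i ≠ j → F i 1 ≠ F j 1)
  (δ : ι → C) (hδ1 : ∀ i, δ i ∈ F i 1) (hδ : ∀ i k t, δ i * t ∈ F i (k + 1) → t ∈ F i k)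
  {κ : ι → Type*} [∀ i, Fintype (κ i)] (z : ∀ i, κ i → C)
  (hz : ∀ i (a : κ i → R), ∑ k, a k • z i k ∈ F i 1 → ∀ k, π ∣ a k)
  (hrank : ∀ v : Option (Σ i, κ i × Fin (e i)) → C,
    ∃ c : Option (Σ i, κ i × Fin (e i)) → R, c ≠ 0 ∧ ∑ j, c j • v j = 0)

include he hanti hπF in
theorem algebraMap_mem_one (i : ι) : algebraMap R C π ∈ F i 1 :=
  le_of_succ_le (F i) (hanti i) (he i) (hπF i)

include he hprime hanti hpow hπF hcontr hne in
/-- For every `i` there is an element outside `F i 1` lying in `F j (e j)` for all `j ≠ i`. -/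
theorem exists_eps (i : ι) : ∃ ε : C, ε ∉ F i 1 ∧ ∀ j, j ≠ i → ε ∈ F j (e j) := by
  classical
  have ht : ∀ j, j ≠ i → ∃ t : C, t ∈ F j 1 ∧ t ∉ F i 1 := fun j hj =>
    haveI := hprime j
    haveI := hprime i
    TwoPrimes.exists_mem_not_mem (F j 1) (F i 1) (algebraMap_mem_one F e he hanti hπF j)
      (hcontr i) (hne j i hj)
  choose! t ht1 ht2 using ht
  refine ⟨∏ j ∈ Finset.univ.erase i, t j ^ e j, ?_, ?_⟩
  · intro hmem
    obtain ⟨j, hj, hjmem⟩ := (Ideal.IsPrime.prod_mem_iff (hp := hprime i)).mp hmem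
    exact ht2 j (Finset.ne_of_mem_erase hj) ((hprime i).mem_of_pow_mem _ hjmem)
  · intro j hj
    have hjm : j ∈ Finset.univ.erase i := Finset.mem_erase.mpr ⟨hj, Finset.mem_univ j⟩
    rw [← Finset.mul_prod_erase _ _ hjm]
    exact Ideal.mul_mem_right _ _ (hpow j _ (ht1 j hj))

include hπ hsep hrank in
/-- The basic dependence relation. -/
theorem exists_relation (ε : ι → C) (w : C) :
    ∃ (s : R) (g : ∀ i, κ i → ℕ → R),
      s • w + ∑ i, ε i * ∑ m ∈ Finset.range (e i), (∑ k, g i k m • z i k) * δ i ^ m = 0 ∧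
      (¬ π ∣ s ∨ ∃ i k, ∃ m < e i, ¬ π ∣ g i k m) := by
  classical
  obtain ⟨c, hc, hrel⟩ := hrank
    (fun o => Option.elim o w (fun j => ε j.1 * (z j.1 j.2.1 * δ j.1 ^ (j.2.2 : ℕ))))
  obtain ⟨c', hrel', o, ho⟩ := TwoPrimes.exists_primitive_relation_of_sep hπ hsep _ c hc hrel
  refine ⟨c' none,
    fun i k m => if h : m < e i then c' (some ⟨i, (k, ⟨m, h⟩)⟩) else 0, ?_, ?_⟩
  · rw [Fintype.sum_option, Fintype.sum_sigma] at hrel'
    simp only [Option.elim_none, Option.elim_some] at hrel'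
    rw [← hrel']
    congr 1
    refine Finset.sum_congr rfl fun i _ => ?_
    rw [← Fin.sum_univ_eq_sum_range
      (fun m => (∑ k, (if h : m < e i then c' (some ⟨i, (k, ⟨m, h⟩)⟩) else 0) • z i k) * δ i ^ m)
      (e i), Fintype.sum_prod_type, Finset.sum_comm, Finset.mul_sum]
    refine Finset.sum_congr rfl fun m _ => ?_
    rw [Finset.sum_mul, Finset.mul_sum]
    refine Finset.sum_congr rfl fun k _ => ?_
    rw [dif_pos m.2, smul_mul_assoc, mul_smul_comm]
  · rcases o with _ | ⟨i, k, m⟩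
    · exact Or.inl ho
    · refine Or.inr ⟨i, k, (m : ℕ), m.2, ?_⟩
      have hd : (if h : (m : ℕ) < e i then c' (some ⟨i, (k, ⟨(m : ℕ), h⟩)⟩) else 0) =
          c' (some ⟨i, (k, m)⟩) := dif_pos m.2
      show ¬ π ∣ (if h : (m : ℕ) < e i then c' (some ⟨i, (k, ⟨(m : ℕ), h⟩)⟩) else 0)
      rw [hd]
      exact ho

include hπ hsep he hprime hanti hpow hπF hcontr hne hδ1 hδ hz hrank in
/-- **(A)** `⨅ i, F i (e i) = (π)`: an element of `C` with "valuation `≥ e i`" at every prime
over `π` is divisible by `π`. -/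
theorem dvd_of_forall_mem (c : C) (hc : ∀ i, c ∈ F i (e i)) : algebraMap R C π ∣ c := by
  classical
  choose ε hε hεmem using exists_eps F e he hprime hanti hpow hπF hcontr hne
  obtain ⟨s, g, hrel, hprim⟩ := exists_relation hπ hsep e δ z hrank ε c
  set S : ι → C := fun i => ∑ m ∈ Finset.range (e i), (∑ k, g i k m • z i k) * δ i ^ m with hS
  have hrel' : s • c + ∑ i, ε i * S i = 0 := hrel
  have hT : ∀ i, ε i * S i ∈ F i (e i) := by
    intro i
    have h1 : ε i * S i = -(s • c) - ∑ j ∈ Finset.univ.erase i, ε j * S j := by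
      have h2 := hrel'
      rw [← Finset.add_sum_erase _ _ (Finset.mem_univ i)] at h2
      linear_combination h2
    rw [h1]
    refine Ideal.sub_mem _ (neg_mem ((F i (e i)).smul_of_tower_mem s (hc i)))
      (Ideal.sum_mem _ fun j hj => Ideal.mul_mem_right _ _ ?_)
    exact hεmem j i (Finset.ne_of_mem_erase hj).symm
  have hdiv : ∀ i k, ∀ m < e i, π ∣ g i k m := fun i =>
    peel (F i) (hprime i) (hanti i) (δ i) (hδ1 i) (hδ i) (z i) (hz i) (ε i) (hε i) (e i)
      (hπF i) (g i) (hT i)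
  have hs : ¬ π ∣ s := by
    rcases hprim with h | ⟨i, k, m, hm, h⟩
    · exact h
    · exact absurd (hdiv i k m hm) h
  have hSy : ∀ i, ∃ y : C, S i = π • y := by
    intro i
    have hb : ∀ k m, ∃ b : R, m < e i → g i k m = π * b := by
      intro k m
      by_cases hm : m < e i
      · obtain ⟨b, hb⟩ := hdiv i k m hm
        exact ⟨b, fun _ => hb⟩
      · exact ⟨0, fun h => absurd h hm⟩
    choose b hb using hb
    refine ⟨∑ m ∈ Finset.range (e i), (∑ k, b k m • z i k) * δ i ^ m, ?_⟩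
    rw [hS, Finset.smul_sum]
    refine Finset.sum_congr rfl fun m hm => ?_
    rw [← smul_mul_assoc, Finset.smul_sum]
    congr 1
    refine Finset.sum_congr rfl fun k _ => ?_
    rw [hb k m (Finset.mem_range.mp hm), mul_smul]
  choose y hy using hSy
  have hsw : s • c = π • (-∑ i, ε i * y i) := by
    have h1 : ∑ i, ε i * S i = π • ∑ i, ε i * y i := by
      rw [Finset.smul_sum]
      exact Finset.sum_congr rfl fun i _ => by rw [hy i, mul_smul_comm]
    rw [smul_neg, ← h1]
    linear_combination hrel'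
  obtain ⟨z', hz'⟩ := NormalFree.exists_eq_smul_of_smul_eq_smul hπ hs hsw
  exact ⟨z', by rw [hz', Algebra.smul_def]⟩

include hπ hsep he hprime hanti hpow hπF hcontr hne hδ1 hδ hz hrank in
/-- **(E)** `(∀ i, c ∈ F i (n * e i)) → π ^ n ∣ c`, if `π` has exact valuation `e i` at every
prime. -/
theorem pow_dvd_of_forall_mem
    (hπdiv : ∀ i k t, algebraMap R C π * t ∈ F i (k + e i) → t ∈ F i k) (n : ℕ) :
    ∀ c : C, (∀ i, c ∈ F i (n * e i)) → algebraMap R C π ^ n ∣ c := by
  induction n with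
  | zero =>
    intro c _
    rw [pow_zero]
    exact one_dvd c
  | succ n ih =>
    intro c hc
    have h1 : ∀ i, c ∈ F i (e i) := fun i =>
      le_of_succ_le (F i) (hanti i) (Nat.le_mul_of_pos_left (e i) (Nat.succ_pos n)) (hc i)
    obtain ⟨c', rfl⟩ := dvd_of_forall_mem hπ hsep F e he hprime hanti hpow hπF hcontr hne δ hδ1 hδ
      z hz hrank c h1
    have h2 : ∀ i, c' ∈ F i (n * e i) := fun i => by
      apply hπdiv i
      have h3 := hc i
      rwa [Nat.succ_mul] at h3
    obtain ⟨d, rfl⟩ := ih c' h2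
    exact ⟨d, by rw [pow_succ]; ring⟩

include hπ hsep he hprime hanti hpow hπF hcontr hne hδ1 hδ hz hrank in
/-- **(B)** Every prime of `C` lying over `(π)` is one of the `F i 1`. -/
theorem exists_eq_of_isPrime (Q : Ideal C) [hQp : Q.IsPrime] (hπQ : algebraMap R C π ∈ Q)
    (hQ : ∀ a : R, algebraMap R C a ∈ Q → π ∣ a) : ∃ i, Q = F i 1 := by
  classical
  by_contra hcon
  simp only [not_exists] at hcon
  have ht : ∀ i, ∃ t : C, t ∈ F i 1 ∧ t ∉ Q := fun i =>
    haveI := hprime i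
    TwoPrimes.exists_mem_not_mem (F i 1) Q (algebraMap_mem_one F e he hanti hπF i) hQ
      (Ne.symm (hcon i))
  choose t ht1 ht2 using ht
  have hmem : ∀ i, ∏ j, t j ^ e j ∈ F i (e i) := by
    intro i
    rw [← Finset.mul_prod_erase _ _ (Finset.mem_univ i)]
    exact Ideal.mul_mem_right _ _ (hpow i _ (ht1 i))
  obtain ⟨d, hd⟩ := dvd_of_forall_mem hπ hsep F e he hprime hanti hpow hπF hcontr hne δ hδ1 hδ
    z hz hrank _ hmem
  have hQmem : ∏ j, t j ^ e j ∈ Q := by
    rw [hd]
    exact Q.mul_mem_right _ hπQ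
  obtain ⟨j, -, hj⟩ := (Ideal.IsPrime.prod_mem_iff (hp := hQp)).mp hQmem
  exact ht2 j (hQp.mem_of_pow_mem _ hj)

include hπ hsep he hprime hanti hpow hπF hcontr hne hδ1 hδ hz hrank in
/-- **(C)** The family `z i` spans `C ⧸ F i 1` over the fraction field of `R ⧸ π`: the residue
degree of `F i 1` is exactly `#(κ i)`. -/
theorem exists_smul_sub_sum_mem (i : ι) (c : C) :
    ∃ (s : R) (a : κ i → R), ¬ π ∣ s ∧ s • c - ∑ k, a k • z i k ∈ F i 1 := by
  classical
  choose ε hε hεmem using exists_eps F e he hprime hanti hpow hπF hcontr hne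
  obtain ⟨s, g, hrel, hprim⟩ := exists_relation hπ hsep e δ z hrank ε (ε i * c)
  set S : ι → C := fun i => ∑ m ∈ Finset.range (e i), (∑ k, g i k m • z i k) * δ i ^ m with hS
  have hrel' : s • (ε i * c) + ∑ j, ε j * S j = 0 := hrel
  -- the primes `j ≠ i`
  have hdiv : ∀ j, j ≠ i → ∀ k, ∀ m < e j, π ∣ g j k m := by
    intro j hj
    refine peel (F j) (hprime j) (hanti j) (δ j) (hδ1 j) (hδ j) (z j) (hz j) (ε j) (hε j) (e j)
      (hπF j) (g j) ?_
    have h1 : ε j * S j = -(s • (ε i * c)) - ∑ l ∈ Finset.univ.erase j, ε l * S l := by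
      have h2 := hrel'
      rw [← Finset.add_sum_erase _ _ (Finset.mem_univ j)] at h2
      linear_combination h2
    show ε j * S j ∈ F j (e j)
    rw [h1]
    refine Ideal.sub_mem _ (neg_mem ((F j (e j)).smul_of_tower_mem s
      (Ideal.mul_mem_right _ _ (hεmem i j hj))))
      (Ideal.sum_mem _ fun l hl => Ideal.mul_mem_right _ _ ?_)
    exact hεmem l j (Finset.ne_of_mem_erase hl).symm
  -- the prime `i`
  have hi : ε i * (s • c + S i) ∈ F i (e i) := by
    have h1 : ε i * (s • c + S i) = -∑ l ∈ Finset.univ.erase i, ε l * S l := by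
      have h2 := hrel'
      rw [← Finset.add_sum_erase _ _ (Finset.mem_univ i), ← mul_smul_comm] at h2
      linear_combination h2
    rw [h1]
    refine neg_mem (Ideal.sum_mem _ fun l hl => Ideal.mul_mem_right _ _ ?_)
    exact hεmem l i (Finset.ne_of_mem_erase hl).symm
  obtain ⟨n, hn⟩ : ∃ n, e i = n + 1 := ⟨e i - 1, (Nat.sub_add_cancel (he i)).symm⟩
  have hSi : S i = δ i * ∑ m ∈ Finset.range n, (∑ k, g i k (m + 1) • z i k) * δ i ^ m +
      ∑ k, g i k 0 • z i k := by
    rw [hS]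
    show ∑ m ∈ Finset.range (e i), (∑ k, g i k m • z i k) * δ i ^ m = _
    rw [hn, sum_range_succ_split]
  have h1 : s • c + ∑ k, g i k 0 • z i k ∈ F i 1 := by
    have h2 : ε i * (s • c + S i) ∈ F i 1 :=
      le_of_succ_le (F i) (hanti i) (he i) hi
    have h3 := ((hprime i).mem_or_mem h2).resolve_left (hε i)
    rw [hSi] at h3
    have h4 := (F i 1).sub_mem h3
      ((F i 1).mul_mem_right (∑ m ∈ Finset.range n, (∑ k, g i k (m + 1) • z i k) * δ i ^ m)
        (hδ1 i))
    have e1 : s • c + (δ i * ∑ m ∈ Finset.range n, (∑ k, g i k (m + 1) • z i k) * δ i ^ m +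
        ∑ k, g i k 0 • z i k) -
        δ i * ∑ m ∈ Finset.range n, (∑ k, g i k (m + 1) • z i k) * δ i ^ m =
        s • c + ∑ k, g i k 0 • z i k := by ring
    rwa [e1] at h4
  have hs : ¬ π ∣ s := by
    intro hs
    have hi' : ε i * S i ∈ F i (e i) := by
      have h2 : ε i * S i = ε i * (s • c + S i) - ε i * s • c := by ring
      rw [h2]
      refine Ideal.sub_mem _ hi (Ideal.mul_mem_left _ _ ?_)
      obtain ⟨t, rfl⟩ := hs
      rw [mul_smul, Algebra.smul_def]
      exact Ideal.mul_mem_right _ _ (hπF i)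
    have hdivi : ∀ k, ∀ m < e i, π ∣ g i k m :=
      peel (F i) (hprime i) (hanti i) (δ i) (hδ1 i) (hδ i) (z i) (hz i) (ε i) (hε i) (e i)
        (hπF i) (g i) hi'
    rcases hprim with h | ⟨j, k, m, hm, h⟩
    · exact h hs
    · by_cases hj : j = i
      · subst hj
        exact h (hdivi k m hm)
      · exact h (hdiv j hj k m hm)
  refine ⟨s, fun k => -g i k 0, hs, ?_⟩
  have e2 : s • c - ∑ k, (-g i k 0) • z i k = s • c + ∑ k, g i k 0 • z i k := by
    simp only [neg_smul, Finset.sum_neg_distrib, sub_neg_eq_add]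
  rw [e2]
  exact h1

include hπ hsep he hprime hanti hpow hπF hcontr hne hδ1 hδ hz hrank in
/-- **(D)** If the family at `i` is the single element `1` and `R ⧸ π` is integrally closed, then
`R ⧸ π → C ⧸ F i 1` is surjective: the component `C ⧸ F i 1` *is* `R ⧸ π`. -/
theorem exists_sub_algebraMap_mem (hnormal : IsIntegrallyClosed (R ⧸ Ideal.span {π}))
    (i : ι) [Unique (κ i)] (hz1 : z i default = 1) (c : C) :
    ∃ r : R, c - algebraMap R C r ∈ F i 1 := by
  obtain ⟨s, a, hs, hsa⟩ := exists_smul_sub_sum_mem hπ hsep F e he hprime hanti hpow hπF hcontr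
    hne δ hδ1 hδ z hz hrank i c
  have := hprime i
  refine exists_sub_algebraMap_mem_of_smul hπ hnormal (F i 1)
    (algebraMap_mem_one F e he hanti hπF i) (hcontr i) c s (a default) hs ?_
  rw [Fintype.sum_unique, hz1, Algebra.smul_def, Algebra.smul_def, mul_one] at hsa
  exact hsa

include hπ hsep he hprime hanti hpow hπF hcontr hne hδ1 hδ hz hrank in
/-- **(F)** The ramification index at `F i 1` is at most `e i`, elementwise: for `x ∈ F i 1`
some multiple `t * x ^ e i` with `t ∉ F i 1` is divisible by `π`. -/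
theorem exists_mul_pow_dvd (i : ι) (x : C) (hx : x ∈ F i 1) :
    ∃ t : C, t ∉ F i 1 ∧ algebraMap R C π ∣ t * x ^ e i := by
  classical
  obtain ⟨ε, hε, hεmem⟩ := exists_eps F e he hprime hanti hpow hπF hcontr hne i
  refine ⟨ε, hε, dvd_of_forall_mem hπ hsep F e he hprime hanti hpow hπF hcontr hne δ hδ1 hδ
    z hz hrank _ fun j => ?_⟩
  by_cases hj : j = i
  · subst hj
    exact Ideal.mul_mem_left _ _ (hpow j x hx)
  · exact Ideal.mul_mem_right _ _ (hεmem j hj)

include hπ hsep he hprime hanti hpow hπF hcontr hne hδ1 hδ hz hrank in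
/-- **(G)** With saturated filtrations: an element which is divisible by `π` "generically at
every prime over `π`" is divisible by `π`. -/
theorem dvd_of_forall_exists_mul
    (hsat : ∀ i k (t x : C), t ∉ F i 1 → t * x ∈ F i k → x ∈ F i k) (x : C)
    (hx : ∀ i, ∃ t : C, t ∉ F i 1 ∧ algebraMap R C π ∣ t * x) : algebraMap R C π ∣ x := by
  refine dvd_of_forall_mem hπ hsep F e he hprime hanti hpow hπF hcontr hne δ hδ1 hδ z hz hrank
    x fun i => ?_
  obtain ⟨t, ht, d, hd⟩ := hx i
  refine hsat i (e i) t x ht ?_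
  rw [hd]
  exact Ideal.mul_mem_right _ _ (hπF i)

end Main

end Fermat.Agent.S36.TriGauss
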